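import Fermat.Agent.S21.LevelOne
import Fermat.Prelude.Def_ModularCurve_GenusNumerics

/-!
# S20: `dim S_2(Γ₀(N)) = genus formula`; shared definitions

Built on top of `Fermat.Agent.S21` (`MF`, `CF`, `X`, `vec`, `FreeBasis`).
-/

set_option autoImplicit false

open UpperHalfPlane ModularForm CongruenceSubgroup Filter Topology
open scoped MatrixGroups ModularForm Manifold
open Fermat.Agent.S21

namespace Fermat.Agent.S20

noncomputable instance instDecEqX (Γ : Subgroup SL(2, ℤ)) : DecidableEq (X Γ) := Classical.decEq _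

/-- A free basis `F_j` of `⨁ M_k(Γ)` over level one, together with the dual family of cusp forms
`G_j ∈ S_{12 - k_j}(Γ)`:  `∑_x (F_j ∣ x)(G_l ∣ x) = δ_{jl} Δ`. -/
structure DualFrame (Γ : Subgroup SL(2, ℤ)) [Γ.FiniteIndex] extends FreeBasis Γ where
  /-- the dual cusp forms -/
  G : X Γ → ℍ → ℂ
  memG : ∀ j, G j ∈ CF Γ (12 - k j)
  dual : ∀ j l τ, ∑ x, vec Γ (k j) (F j) x τ * vec Γ (12 - k l) (G l) x τ =
    if j = l then Dl τ else 0

/-- number of orbits of the cyclic group generated by `g` on `X Γ` -/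
noncomputable def orbitCount (Γ : Subgroup SL(2, ℤ)) (g : SL(2, ℤ)) : ℕ :=
  Nat.card (MulAction.orbitRel.Quotient (Subgroup.zpowers g) (X Γ))

/-- the space of `g`-invariant functions on `X Γ` -/
def invFun (Γ : Subgroup SL(2, ℤ)) (g : SL(2, ℤ)) : Submodule ℂ (X Γ → ℂ) where
  carrier := {v | ∀ x, v (g⁻¹ • x) = v x}
  add_mem' := fun ha hb x => by simp [ha x, hb x]
  zero_mem' := fun _ => rfl
  smul_mem' := fun c v hv x => by simp [hv x]

end Fermat.Agent.S20
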