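import Fermat.Agent.S20.Defs

/-!
# S20 task C (Invariants): linear algebra of permutation operators
-/

set_option autoImplicit false

open UpperHalfPlane ModularForm CongruenceSubgroup Filter Topology
open scoped MatrixGroups ModularForm Manifold
open Fermat.Agent.S21

namespace Fermat.Agent.S20

variable {Γ : Subgroup SL(2, ℤ)} [Γ.FiniteIndex]

namespace Invariants

omit [Γ.FiniteIndex] in
theorem inv_zpow_smul {g : SL(2, ℤ)} {v : X Γ → ℂ} (hv : v ∈ invFun Γ g) (n : ℤ) (x : X Γ) :
    v (g ^ n • x) = v x := by
  have h1 : ∀ x, v (g⁻¹ • x) = v x := hv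
  have h2 : ∀ x, v (g • x) = v x := fun x => by
    have := h1 (g • x)
    rw [inv_smul_smul] at this
    exact this.symm
  induction n using Int.induction_on generalizing x with
  | zero => simp
  | succ n ih =>
    rw [zpow_add_one, mul_smul, ih, h2]
  | pred n ih =>
    rw [zpow_sub_one, mul_smul, ih, h1]

omit [Γ.FiniteIndex] in
theorem inv_of_orbitRel {g : SL(2, ℤ)} {v : X Γ → ℂ} (hv : v ∈ invFun Γ g) (x y : X Γ)
    (h : (MulAction.orbitRel (Subgroup.zpowers g) (X Γ)) x y) : v x = v y := by
  rw [MulAction.orbitRel_apply] at h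
  obtain ⟨⟨a, ha⟩, rfl⟩ := h
  obtain ⟨n, rfl⟩ := Subgroup.mem_zpowers_iff.mp ha
  exact inv_zpow_smul hv n y

/-- invariant functions are the functions on the orbit space -/
noncomputable def invEquiv (g : SL(2, ℤ)) :
    invFun Γ g ≃ₗ[ℂ] (MulAction.orbitRel.Quotient (Subgroup.zpowers g) (X Γ) → ℂ) where
  toFun v := fun q => Quotient.lift (s := MulAction.orbitRel (Subgroup.zpowers g) (X Γ)) v.1
    (fun x y h => inv_of_orbitRel v.2 x y h) q
  map_add' v w := by
    funext q
    induction q using Quotient.inductionOn with
    | h x => rfl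
  map_smul' c v := by
    funext q
    induction q using Quotient.inductionOn with
    | h x => rfl
  invFun w := ⟨fun x => w (Quotient.mk _ x), fun x => by
    have h : (Quotient.mk (MulAction.orbitRel (Subgroup.zpowers g) (X Γ)) (g⁻¹ • x)) =
        Quotient.mk (MulAction.orbitRel (Subgroup.zpowers g) (X Γ)) x := by
      apply Quotient.sound
      change (MulAction.orbitRel (Subgroup.zpowers g) (X Γ)) _ _
      rw [MulAction.orbitRel_apply]
      exact ⟨⟨g⁻¹, Subgroup.inv_mem _ (Subgroup.mem_zpowers g)⟩, rfl⟩
    exact congrArg w h⟩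
  left_inv v := by
    ext x
    rfl
  right_inv w := by
    funext q
    induction q using Quotient.inductionOn with
    | h x => rfl

end Invariants

/-- dimension of the space of `g`-invariant functions on `X Γ` = number of orbits of `⟨g⟩`
(invariant functions are the functions on the orbit space) -/
theorem finrank_invFun (g : SL(2, ℤ)) : Module.finrank ℂ (invFun Γ g) = orbitCount Γ g := by
  classical
  have : Finite (MulAction.orbitRel.Quotient (Subgroup.zpowers g) (X Γ)) :=
    Quotient.finite _
  have : Fintype (MulAction.orbitRel.Quotient (Subgroup.zpowers g) (X Γ)) := Fintype.ofFinite _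
  rw [(Invariants.invEquiv (Γ := Γ) g).finrank_eq, Module.finrank_fintype_fun_eq_card, orbitCount,
    Nat.card_eq_fintype_card]

/-- If `v_j` (`j ∈ ι`, `ι` finite) is a basis of eigenvectors of `R`, with eigenvalues `c_j`, then the
dimension of the fixed space of `R` is the number of `j` with `c_j = 1`. -/
theorem card_eigenvalue_one {ι V : Type*} [Fintype ι] [AddCommGroup V] [Module ℂ V]
    (v : ι → V) (hli : LinearIndependent ℂ v) (hsp : ⊤ ≤ Submodule.span ℂ (Set.range v))
    (R : V →ₗ[ℂ] V) (c : ι → ℂ) [DecidablePred fun j => c j = 1] (hR : ∀ j, R (v j) = c j • v j) :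
    (Finset.univ.filter fun j => c j = 1).card =
      Module.finrank ℂ (LinearMap.ker (R - LinearMap.id)) := by
  classical
  set b := Module.Basis.mk hli hsp with hb
  have hbv : ∀ j, b j = v j := fun j => by rw [hb, Module.Basis.mk_apply]
  have hker : LinearMap.ker (R - LinearMap.id) =
      Submodule.span ℂ (Set.range fun j : {j // c j = 1} => v j) := by
    apply le_antisymm
    · intro x hx
      rw [LinearMap.mem_ker, LinearMap.sub_apply, LinearMap.id_apply, sub_eq_zero] at hx
      have hx1 : x = ∑ j, b.repr x j • v j := by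
        conv_lhs => rw [← b.sum_repr x]
        simp only [hbv]
      have hx2 : ∑ j, (b.repr x j * (c j - 1)) • v j = 0 := by
        have : R x = ∑ j, (b.repr x j * c j) • v j := by
          conv_lhs => rw [hx1]
          rw [map_sum]
          refine Finset.sum_congr rfl fun j _ => ?_
          rw [map_smul, hR, smul_smul]
        have h3 : ∑ j, (b.repr x j * (c j - 1)) • v j
            = ∑ j, (b.repr x j * c j) • v j - ∑ j, b.repr x j • v j := by
          rw [← Finset.sum_sub_distrib]
          refine Finset.sum_congr rfl fun j _ => ?_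
          rw [mul_sub, mul_one, sub_smul]
        rw [h3, ← this, ← hx1, hx, sub_self]
      have hz := Fintype.linearIndependent_iff.mp hli _ hx2
      rw [hx1]
      refine Submodule.sum_mem _ fun j _ => ?_
      by_cases hj : c j = 1
      · exact Submodule.smul_mem _ _ (Submodule.subset_span ⟨⟨j, hj⟩, rfl⟩)
      · have := hz j
        rw [mul_eq_zero] at this
        rcases this with h | h
        · rw [h, zero_smul]; exact Submodule.zero_mem _
        · exact absurd (sub_eq_zero.mp h) hj
    · rw [Submodule.span_le]
      rintro _ ⟨⟨j, hj⟩, rfl⟩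
      simp only [SetLike.mem_coe, LinearMap.mem_ker, LinearMap.sub_apply, LinearMap.id_apply]
      rw [hR, hj, one_smul, sub_self]
  have hli' : LinearIndependent ℂ (fun j : {j // c j = 1} => v j) :=
    hli.comp _ Subtype.val_injective
  rw [hker, finrank_span_eq_card hli', Fintype.card_subtype]

end Fermat.Agent.S20
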