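import Fermat.Agent.S20.Defs

/-!
# S20 task E (Range): the weights of a dual frame are even and lie in `[0, 10]`
-/

set_option autoImplicit false

open UpperHalfPlane ModularForm CongruenceSubgroup Filter Topology
open scoped MatrixGroups ModularForm Manifold
open Fermat.Agent.S21

namespace Fermat.Agent.S20

variable {Γ : Subgroup SL(2, ℤ)} [Γ.FiniteIndex]

namespace Range

omit [Γ.FiniteIndex] in
theorem vec_zero' (k : ℤ) (x : X Γ) : vec Γ k (0 : ℍ → ℂ) x = 0 := by
  unfold vec
  exact SlashAction.zero_slash _ _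

theorem F_ne_zero (D : DualFrame Γ) (j : X Γ) : D.F j ≠ 0 := by
  intro h
  have h1 := D.dual j j UpperHalfPlane.I
  rw [if_pos rfl, h] at h1
  simp only [vec_zero', Pi.zero_apply, zero_mul, Finset.sum_const_zero] at h1
  exact Dl_ne_zero _ h1.symm

theorem G_ne_zero (D : DualFrame Γ) (j : X Γ) : D.G j ≠ 0 := by
  intro h
  have h1 := D.dual j j UpperHalfPlane.I
  rw [if_pos rfl, h] at h1
  simp only [vec_zero', Pi.zero_apply, mul_zero, Finset.sum_const_zero] at h1
  exact Dl_ne_zero _ h1.symm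

end Range

/-- `F_j ≠ 0` (by `indep`) so `k_j ≥ 0` (`MF_eq_bot_of_neg`) and `k_j` is even (`MF_eq_bot_of_odd`);
`G_j ≠ 0` (by `dual` with `j = l` and `Dl_ne_zero`) so `12 - k_j > 0` (`CF_eq_bot_of_nonpos`). -/
theorem DualFrame.k_mem (D : DualFrame Γ) (hΓ : -1 ∈ Γ) (j : X Γ) :
    0 ≤ D.k j ∧ D.k j ≤ 10 ∧ Even (D.k j) := by
  have hF := Range.F_ne_zero D j
  have hG := Range.G_ne_zero D j
  have h0 : 0 ≤ D.k j := by
    by_contra hneg
    have := D.mem j
    rw [MF_eq_bot_of_neg (not_le.mp hneg), Submodule.mem_bot] at this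
    exact hF this
  have he : Even (D.k j) := by
    by_contra hodd
    have := D.mem j
    rw [MF_eq_bot_of_odd hΓ (Int.not_even_iff_odd.mp hodd), Submodule.mem_bot] at this
    exact hF this
  have h12 : 0 < 12 - D.k j := by
    by_contra hle
    have := D.memG j
    rw [CF_eq_bot_of_nonpos (not_lt.mp hle), Submodule.mem_bot] at this
    exact hG this
  refine ⟨h0, ?_, he⟩
  obtain ⟨m, hm⟩ := he
  omega

end Fermat.Agent.S20
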