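import Fermat.Agent.S20.Structure
import Fermat.Agent.S20.Invariants
import Fermat.Agent.S20.Range

/-!
# S20 task F (Cusps): `dim M_14 - dim S_14 = number of cusps`
-/

set_option autoImplicit false

open UpperHalfPlane ModularForm CongruenceSubgroup Filter Topology
open scoped MatrixGroups ModularForm Manifold
open Fermat.Agent.S21

namespace Fermat.Agent.S20

/-- a periodic, holomorphic function, bounded at `i∞`, has a limit at `i∞` -/
theorem tendsto_valueAtInfty {φ : ℍ → ℂ} {h : ℝ} (hh : 0 < h)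
    (hper : Function.Periodic (φ ∘ ofComplex) h) (hhol : MDiff φ) (hbdd : IsBoundedAtImInfty φ) :
    Tendsto φ atImInfty (𝓝 (valueAtInfty φ)) := by
  have han := analyticAt_cuspFunction_zero hh hper hhol hbdd
  rw [← cuspFunction_apply_zero hh han hper]
  have h1 : (cuspFunction h φ ∘ fun τ : ℍ ↦ Function.Periodic.qParam h τ : ℍ → ℂ) = φ := by
    funext τ
    simpa using eq_cuspFunction τ hh.ne' hper
  simpa [h1] using han.continuousAt.tendsto.comp (qParam_tendsto_atImInfty hh)

variable {N : ℕ} [NeZero N]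

/-- every translate of a modular form has a limit at `i∞` -/
theorem tendsto_vec {k : ℤ} {f : ℍ → ℂ} (hf : f ∈ MF (Gamma0 N) k) (x : X (Gamma0 N)) :
    Tendsto (vec (Gamma0 N) k f x) atImInfty (𝓝 (valueAtInfty (vec (Gamma0 N) k f x))) := by
  have hN : (0 : ℝ) < N := by exact_mod_cast Nat.pos_of_ne_zero (NeZero.ne N)
  exact tendsto_valueAtInfty hN (slash_periodic N hf.2.1 _) (vec_mdiff hf.1 k x)
    (vec_isBoundedAtImInfty hf x)

theorem tendsto_one_vadd : Tendsto (fun τ : ℍ => (1 : ℝ) +ᵥ τ) atImInfty atImInfty := by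
  rw [atImInfty, tendsto_comap_iff]
  have : (im ∘ fun τ : ℍ => (1 : ℝ) +ᵥ τ) = im := by
    funext τ
    simp
  rw [this]
  exact tendsto_comap

theorem denom_T (τ : ℍ) : denom (ModularGroup.T : SL(2, ℤ)) τ = 1 := by
  rw [ModularGroup.denom_apply]
  simp [ModularGroup.T]

omit [NeZero N] in
theorem vec_one_vadd {k : ℤ} {f : ℍ → ℂ} (hf : ∀ γ ∈ Gamma0 N, f ∣[k] γ = f) (x : X (Gamma0 N))
    (τ : ℍ) : vec (Gamma0 N) k f x ((1 : ℝ) +ᵥ τ) =
      vec (Gamma0 N) k f (ModularGroup.T⁻¹ • x) τ := by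
  have h := vec_smul_apply hf x ModularGroup.T τ
  rw [UpperHalfPlane.modular_T_smul] at h
  rw [h, denom_T, one_zpow, one_mul]

/-- the vector of values at `i∞` of the translates is `T`-invariant -/
theorem valueAtInfty_vec_mem {k : ℤ} {f : ℍ → ℂ} (hf : f ∈ MF (Gamma0 N) k) :
    (fun x => valueAtInfty (vec (Gamma0 N) k f x)) ∈ invFun (Gamma0 N) ModularGroup.T := by
  intro x
  have h1 := (tendsto_vec hf x).comp tendsto_one_vadd
  have h2 := tendsto_vec hf (ModularGroup.T⁻¹ • x)
  have h3 : (vec (Gamma0 N) k f x ∘ fun τ : ℍ => (1 : ℝ) +ᵥ τ) =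
      vec (Gamma0 N) k f (ModularGroup.T⁻¹ • x) := by
    funext τ
    exact vec_one_vadd hf.2.1 x τ
  rw [h3] at h1
  exact tendsto_nhds_unique h2 h1

theorem periodic_of_vadd {g : ℍ → ℂ} (hper : ∀ τ : ℍ, g ((1 : ℝ) +ᵥ τ) = g τ) :
    Function.Periodic (g ∘ ofComplex) (1 : ℝ) := by
  intro w
  by_cases hw : 0 < w.im
  · have h1 : 0 < (w + (1 : ℝ)).im := by simpa using hw
    simp only [Function.comp_apply, ofComplex_apply_of_im_pos h1, ofComplex_apply_of_im_pos hw]
    rw [← hper ⟨w, hw⟩]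
    congr 1
    ext
    simp [add_comm]
  · have h1 : (w + (1 : ℝ)).im ≤ 0 := by simpa using not_lt.mp hw
    simp only [Function.comp_apply, ofComplex_apply_of_im_nonpos h1,
      ofComplex_apply_of_im_nonpos (not_lt.mp hw)]

theorem exists_tendsto_div_Dl {g : ℍ → ℂ} (hg : MDiff g)
    (hper : ∀ τ : ℍ, g ((1 : ℝ) +ᵥ τ) = g τ) (h0 : IsZeroAtImInfty g) :
    ∃ c : ℂ, Tendsto (fun τ => g τ / Dl τ) atImInfty (𝓝 c) := by
  have hper' := periodic_of_vadd hper
  have hbdd : IsBoundedAtImInfty g := h0.boundedAtFilter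
  have han := analyticAt_cuspFunction_zero one_pos hper' hg hbdd
  have hG0 : cuspFunction 1 g 0 = 0 := h0.cuspFunction_apply_zero one_pos
  have hcont : ContinuousAt (dslope (cuspFunction 1 g) 0) 0 :=
    continuousAt_dslope_same.2 han.differentiableAt
  have h1 : Tendsto (fun τ : ℍ => dslope (cuspFunction 1 g) 0 (Function.Periodic.qParam 1 τ))
      atImInfty (𝓝 (dslope (cuspFunction 1 g) 0 0)) :=
    hcont.tendsto.comp (qParam_tendsto_atImInfty one_pos)
  have h2 : ∀ τ : ℍ, dslope (cuspFunction 1 g) 0 (Function.Periodic.qParam 1 τ) =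
      g τ / Function.Periodic.qParam 1 τ := by
    intro τ
    have hq : Function.Periodic.qParam 1 τ ≠ 0 := Complex.exp_ne_zero _
    rw [dslope_of_ne _ hq, slope_def_field, hG0, sub_zero, sub_zero,
      eq_cuspFunction τ one_ne_zero hper']
  refine ⟨dslope (cuspFunction 1 g) 0 0 / 1, ?_⟩
  have h3 := h1.div tendsto_atImInfty_tprod_one_sub_eta_q_pow one_ne_zero
  refine h3.congr fun τ => ?_
  have hq : Function.Periodic.qParam 1 τ ≠ 0 := Complex.exp_ne_zero _
  simp only [Pi.div_apply]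
  rw [h2, Dl, discriminant_eq_q_prod, div_div]

theorem DualFrame.exists_combination (D : DualFrame (Gamma0 N)) {w : X (Gamma0 N) → ℂ}
    (hw : w ∈ invFun (Gamma0 N) ModularGroup.T) :
    ∃ c : X (Gamma0 N) → ℂ, ∀ x,
      w x = ∑ j, c j * valueAtInfty (vec (Gamma0 N) (D.k j) (D.F j) x) := by
  let g : X (Gamma0 N) → ℍ → ℂ := fun j => ∑ y, w y • vec (Gamma0 N) (12 - D.k j) (D.G j) y
  have hg_apply : ∀ j τ, g j τ = ∑ y, w y * vec (Gamma0 N) (12 - D.k j) (D.G j) y τ := by
    intro j τ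
    simp [g, Finset.sum_apply]
  have hgm : ∀ j, MDiff (g j) := fun j =>
    MDifferentiable.sum fun y _ => (vec_mdiff (D.memG j).1 _ y).const_smul (w y)
  have hgper : ∀ j τ, g j ((1 : ℝ) +ᵥ τ) = g j τ := by
    intro j τ
    rw [hg_apply, hg_apply]
    simp_rw [vec_one_vadd (D.memG j).2.1]
    rw [← Equiv.sum_comp (MulAction.toPerm (ModularGroup.T : SL(2, ℤ)) :
      Equiv.Perm (X (Gamma0 N)))]
    refine Finset.sum_congr rfl fun y _ => ?_
    have h1 := hw (ModularGroup.T • y)
    rw [inv_smul_smul] at h1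
    simp only [MulAction.toPerm_apply, inv_smul_smul, h1]
  have hg0 : ∀ j, IsZeroAtImInfty (g j) := by
    intro j
    have : Tendsto (fun τ => ∑ y, w y * vec (Gamma0 N) (12 - D.k j) (D.G j) y τ) atImInfty
        (𝓝 (∑ _y : X (Gamma0 N), w _y * 0)) :=
      tendsto_finsetSum _ fun y _ => (vec_isZeroAtImInfty (D.memG j) y).const_mul (w y)
    simp only [mul_zero, Finset.sum_const_zero] at this
    exact this.congr fun τ => (hg_apply j τ).symm
  choose c hc using fun j => exists_tendsto_div_Dl (hgm j) (hgper j) (hg0 j)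
  refine ⟨c, fun x => ?_⟩
  have hlim : Tendsto (fun τ => ∑ j, (g j τ / Dl τ) * vec (Gamma0 N) (D.k j) (D.F j) x τ) atImInfty
      (𝓝 (∑ j, c j * valueAtInfty (vec (Gamma0 N) (D.k j) (D.F j) x))) :=
    tendsto_finsetSum _ fun j _ => (hc j).mul (tendsto_vec (D.mem j) x)
  have hconst : ∀ τ, ∑ j, (g j τ / Dl τ) * vec (Gamma0 N) (D.k j) (D.F j) x τ = w x := by
    intro τ
    have hD := Dl_ne_zero τ
    calc ∑ j, (g j τ / Dl τ) * vec (Gamma0 N) (D.k j) (D.F j) x τ
        = (∑ y, w y * ∑ j, vec (Gamma0 N) (D.k j) (D.F j) x τ *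
            vec (Gamma0 N) (12 - D.k j) (D.G j) y τ) / Dl τ := by
          simp_rw [hg_apply, Finset.mul_sum, Finset.sum_div, Finset.sum_mul]
          rw [Finset.sum_comm]
          refine Finset.sum_congr rfl fun y _ => Finset.sum_congr rfl fun j _ => ?_
          ring
      _ = w x := by
          simp_rw [D.dual' x _ τ]
          simp [hD]
  exact tendsto_nhds_unique (tendsto_const_nhds.congr fun τ => (hconst τ).symm) hlim

/-- evaluation at the cusps -/
noncomputable def evCusps (N : ℕ) [NeZero N] (k : ℤ) :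
    MF (Gamma0 N) k →ₗ[ℂ] invFun (Gamma0 N) ModularGroup.T where
  toFun f := ⟨fun x => valueAtInfty (vec (Gamma0 N) k f x), valueAtInfty_vec_mem f.2⟩
  map_add' f g := by
    ext x
    have h1 := (tendsto_vec f.2 x).add (tendsto_vec g.2 x)
    have h2 := tendsto_vec (f + g).2 x
    have h3 : vec (Gamma0 N) k (↑(f + g)) x =
        fun τ => vec (Gamma0 N) k (↑f) x τ + vec (Gamma0 N) k (↑g) x τ := by
      rw [Submodule.coe_add, vec_add]
      rfl
    rw [h3] at h2
    rw [← h3] at h2
    have h4 : Tendsto (vec (Gamma0 N) k (↑(f + g)) x) atImInfty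
        (𝓝 (valueAtInfty (vec (Gamma0 N) k (↑f) x) + valueAtInfty (vec (Gamma0 N) k (↑g) x))) := by
      rw [h3]
      exact h1
    exact tendsto_nhds_unique h2 h4
  map_smul' c f := by
    ext x
    have h1 := (tendsto_vec f.2 x).const_smul c
    have h2 := tendsto_vec (c • f).2 x
    have h3 : vec (Gamma0 N) k (↑(c • f)) x = fun τ => c • vec (Gamma0 N) k (↑f) x τ := by
      rw [Submodule.coe_smul, vec_smul]
      rfl
    have h4 : Tendsto (vec (Gamma0 N) k (↑(c • f)) x) atImInfty
        (𝓝 (c • valueAtInfty (vec (Gamma0 N) k (↑f) x))) := by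
      rw [h3]
      exact h1
    exact tendsto_nhds_unique h2 h4

theorem ker_evCusps (k : ℤ) : LinearMap.ker (evCusps N k) =
    Submodule.comap (MF (Gamma0 N) k).subtype (CF (Gamma0 N) k) := by
  ext f
  rw [LinearMap.mem_ker, Submodule.mem_comap, Submodule.subtype_apply]
  constructor
  · intro h
    have h' : ∀ x, valueAtInfty (vec (Gamma0 N) k f x) = 0 := fun x =>
      congrFun (congrArg Subtype.val h) x
    refine ⟨f.2.1, f.2.2.1, fun δ => ?_⟩
    have h1 := tendsto_vec f.2 (QuotientGroup.mk δ⁻¹ : X (Gamma0 N))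
    rw [h', vec_mk f.2.2.1, inv_inv] at h1
    exact h1
  · intro h
    ext x
    exact (vec_isZeroAtImInfty h x).valueAtInfty_eq_zero

theorem DualFrame.evCusps_surjective (D : DualFrame (Gamma0 N)) :
    Function.Surjective (evCusps N 14) := by
  rintro ⟨w, hw⟩
  obtain ⟨c, hc⟩ := D.exists_combination hw
  have hk := fun j => D.k_mem (neg_one_mem_Gamma0 N) j
  have hA : ∀ j, ∃ A ∈ MF ⊤ (14 - D.k j), Tendsto A atImInfty (𝓝 1) := by
    intro j
    obtain ⟨A, hA, hO⟩ := exists_MFtop_one_add (n := 14 - D.k j) (by have := (hk j).2.1; omega)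
      (by
        obtain ⟨r, hr⟩ := (hk j).2.2
        exact ⟨7 - r, by omega⟩)
    refine ⟨A, hA, ?_⟩
    have h0 : Tendsto (fun τ : ℍ => Real.exp (-2 * Real.pi * τ.im)) atImInfty (𝓝 0) := by
      have h1 : Tendsto (fun τ : ℍ => -2 * Real.pi * τ.im) atImInfty atBot := by
        apply Tendsto.const_mul_atTop_of_neg (by nlinarith [Real.pi_pos])
        exact tendsto_comap
      exact Real.tendsto_exp_atBot.comp h1
    have h2 := hO.trans_tendsto h0
    have h3 := h2.add_const 1
    simpa using h3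
  choose A hAm hAt using hA
  have hmem : ∀ j, A j * D.F j ∈ MF (Gamma0 N) 14 := fun j =>
    mul_mem_MF' (MF_mono le_top _ (hAm j)) (D.mem j) (by ring)
  refine ⟨⟨∑ j, c j • (A j * D.F j), Submodule.sum_mem _ fun j _ =>
    Submodule.smul_mem _ _ (hmem j)⟩, ?_⟩
  ext x
  change valueAtInfty (vec (Gamma0 N) 14 (∑ j, c j • (A j * D.F j)) x) = w x
  have hv : vec (Gamma0 N) 14 (∑ j, c j • (A j * D.F j)) x =
      ∑ j, c j • (A j * vec (Gamma0 N) (D.k j) (D.F j) x) := by
    have hsum : ∀ (s : Finset (X (Gamma0 N))),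
        vec (Gamma0 N) 14 (∑ j ∈ s, c j • (A j * D.F j)) x =
          ∑ j ∈ s, c j • (A j * vec (Gamma0 N) (D.k j) (D.F j) x) := by
      intro s
      induction s using Finset.induction_on with
      | empty =>
        simp only [Finset.sum_empty]
        simp [vec]
      | insert j s hj ih =>
        rw [Finset.sum_insert hj, Finset.sum_insert hj, vec_add, ih, vec_smul]
        congr 2
        have := vec_mul_levelOne (Γ := Gamma0 N) (hAm j) (D.k j) (D.F j) x
        rwa [show 14 - D.k j + D.k j = 14 by ring] at this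
    exact hsum _
  rw [hv, hc x]
  apply Tendsto.limUnder_eq
  have : Tendsto (fun τ => ∑ j, c j * (A j τ * vec (Gamma0 N) (D.k j) (D.F j) x τ)) atImInfty
      (𝓝 (∑ j, c j * (1 * valueAtInfty (vec (Gamma0 N) (D.k j) (D.F j) x)))) :=
    tendsto_finsetSum _ fun j _ => ((hAt j).mul (tendsto_vec (D.mem j) x)).const_mul (c j)
  simp only [one_mul] at this
  refine this.congr fun τ => ?_
  simp [Finset.sum_apply]

/-- `M_14 / S_14` is the space of `T`-invariant functions on `X` (values at the cusps). -/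
theorem DualFrame.finrank_MF_fourteen (D : DualFrame (Gamma0 N)) :
    Module.finrank ℂ (MF (Gamma0 N) 14) =
      Module.finrank ℂ (CF (Gamma0 N) 14) + orbitCount (Gamma0 N) ModularGroup.T := by
  have := finiteDimensional_MF D.toFreeBasis 14
  have h1 := LinearMap.finrank_range_add_finrank_ker (evCusps N 14)
  rw [LinearMap.range_eq_top.2 D.evCusps_surjective, finrank_top, finrank_invFun, ker_evCusps,
    (Submodule.comapSubtypeEquivOfLe (CF_le_MF (Gamma0 N) 14)).finrank_eq] at h1
  omega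

end Fermat.Agent.S20
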