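import Fermat.Agent.S20.Invariants

/-!
# S20 task D (Elliptic): weights mod 4 and mod 6
-/

set_option autoImplicit false

open UpperHalfPlane ModularForm CongruenceSubgroup Filter Topology
open scoped MatrixGroups ModularForm Manifold
open Fermat.Agent.S21

namespace Fermat.Agent.S20

namespace Elliptic

/-! ### roots of unity -/

theorem zpow_eq_one_iff_six_dvd {z : ℂ} (hz : z ^ 2 = z - 1) (k : ℤ) :
    z ^ k = 1 ↔ (6 : ℤ) ∣ k := by
  have hz0 : z ≠ 0 := by
    rintro rfl
    norm_num at hz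
  have hz1 : z ≠ 1 := by
    rintro rfl
    norm_num at hz
  have hk : k = 6 * (k / 6) + k % 6 := (Int.mul_ediv_add_emod k 6).symm
  have h3' : z ^ (3 : ℕ) = -1 := by
    linear_combination (z + 1) * hz
  have h6 : z ^ (6 : ℤ) = 1 := by
    have : z ^ (6 : ℕ) = 1 := by
      calc z ^ 6 = (z ^ 3) ^ 2 := by ring
        _ = 1 := by rw [h3']; ring
    exact_mod_cast this
  have hred : z ^ k = z ^ (k % 6) := by
    conv_lhs => rw [hk]
    rw [zpow_add₀ hz0, zpow_mul, h6, one_zpow, one_mul]
  rw [hred, Int.dvd_iff_emod_eq_zero]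
  have h1 : 0 ≤ k % 6 := Int.emod_nonneg _ (by norm_num)
  have h2 : k % 6 < 6 := Int.emod_lt_of_pos _ (by norm_num)
  generalize k % 6 = r at h1 h2 ⊢
  constructor
  · intro h
    interval_cases r
    · rfl
    · exfalso
      rw [zpow_one] at h
      exact hz1 h
    · exfalso
      have h2' : z ^ (2 : ℤ) = z - 1 := by exact_mod_cast hz
      rw [h2'] at h
      have hz2 : z = 2 := by linear_combination h
      rw [hz2] at hz
      norm_num at hz
    · exfalso
      have h3 : z ^ (3 : ℤ) = -1 := by exact_mod_cast h3'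
      rw [h3] at h
      norm_num at h
    · exfalso
      have h4 : z ^ (4 : ℤ) = -z := by
        have : z ^ (4 : ℕ) = -z := by
          calc z ^ 4 = z ^ 3 * z := by ring
            _ = -z := by rw [h3']; ring
        exact_mod_cast this
      rw [h4] at h
      have hz2 : z = -1 := by linear_combination -h
      rw [hz2] at hz
      norm_num at hz
    · exfalso
      have h5 : z ^ (5 : ℤ) = 1 - z := by
        have : z ^ (5 : ℕ) = 1 - z := by
          calc z ^ 5 = z ^ 3 * z ^ 2 := by ring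
            _ = 1 - z := by rw [h3', hz]; ring
        exact_mod_cast this
      rw [h5] at h
      exact hz0 (by linear_combination -h)
  · rintro rfl
    exact zpow_zero z

theorem I_zpow_eq_one_iff (k : ℤ) : Complex.I ^ k = 1 ↔ (4 : ℤ) ∣ k := by
  have h := Complex.isPrimitiveRoot_I.zpow_eq_one_iff_dvd k
  exact_mod_cast h

/-! ### fixed points -/

theorem S_smul_I : ModularGroup.S • (UpperHalfPlane.I : ℍ) = UpperHalfPlane.I := by
  rw [UpperHalfPlane.ext_iff, modular_S_smul, UpperHalfPlane.coe_mk, UpperHalfPlane.coe_I]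
  rw [inv_neg, Complex.inv_I, neg_neg]

theorem ST_smul_rho : (ModularGroup.S * ModularGroup.T) • (ρ : ℍ) = ρ := by
  rw [mul_smul, UpperHalfPlane.ext_iff, modular_S_smul, modular_T_smul, UpperHalfPlane.coe_mk,
    coe_vadd]
  have h := ρ_sq
  have hne : (-(((1 : ℝ) : ℂ) + (ρ : ℂ))) ≠ 0 := by
    intro h0
    have h1 : (ρ : ℂ) = -1 := by
      push_cast at h0
      linear_combination -h0
    rw [h1] at h
    norm_num at h
  symm
  refine eq_inv_of_mul_eq_one_left ?_
  push_cast
  linear_combination -h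

theorem denom_ST_rho {g : SL(2, ℤ)} (hg : g = ModularGroup.S * ModularGroup.T) :
    denom g (ρ : ℍ) = (ρ : ℂ) + 1 := by
  subst hg
  rw [ModularGroup.denom_apply]
  have h10 : (ModularGroup.S * ModularGroup.T : SL(2, ℤ)) 1 0 = 1 := by
    simp [ModularGroup.coe_S, ModularGroup.coe_T, Matrix.SpecialLinearGroup.coe_mul,
      Matrix.mul_apply, Fin.sum_univ_two]
  have h11 : (ModularGroup.S * ModularGroup.T : SL(2, ℤ)) 1 1 = 1 := by
    simp [ModularGroup.coe_S, ModularGroup.coe_T, Matrix.SpecialLinearGroup.coe_mul,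
      Matrix.mul_apply, Fin.sum_univ_two]
  rw [h10, h11]
  simp

/-- precomposition with the action of `g⁻¹` -/
def actInv (Γ : Subgroup SL(2, ℤ)) (g : SL(2, ℤ)) : (X Γ → ℂ) →ₗ[ℂ] (X Γ → ℂ) :=
  LinearMap.funLeft ℂ ℂ (fun x : X Γ => g⁻¹ • x)

theorem actInv_apply {Γ : Subgroup SL(2, ℤ)} (g : SL(2, ℤ)) (a : X Γ → ℂ) (x : X Γ) :
    actInv Γ g a x = a (g⁻¹ • x) := rfl

theorem invFun_eq_ker (Γ : Subgroup SL(2, ℤ)) (g : SL(2, ℤ)) :
    invFun Γ g = LinearMap.ker (actInv Γ g - LinearMap.id) := by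
  ext a
  rw [LinearMap.mem_ker]
  constructor
  · intro ha
    funext x
    have := ha x
    simp only [LinearMap.sub_apply, LinearMap.id_apply, Pi.sub_apply, actInv_apply, Pi.zero_apply]
    rw [this, sub_self]
  · intro ha x
    have := congrFun ha x
    simp only [LinearMap.sub_apply, LinearMap.id_apply, Pi.sub_apply, actInv_apply,
      Pi.zero_apply] at this
    exact sub_eq_zero.mp this

end Elliptic

open Elliptic

variable {Γ : Subgroup SL(2, ℤ)} [Γ.FiniteIndex]

/-- Evaluate a free basis at a fixed point `τ₀` of `g`: the columns `x ↦ vec (F_j) x τ₀` form a basis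
of `X Γ → ℂ` consisting of eigenvectors of `v ↦ (x ↦ v (g⁻¹ • x))`, with eigenvalue
`(denom g τ₀) ^ (- k_j)` (by `vec_smul_apply`). -/
theorem card_filter_denom_zpow_eq_one (B : FreeBasis Γ) (g : SL(2, ℤ)) (τ₀ : ℍ) (hg : g • τ₀ = τ₀) :
    (Finset.univ.filter fun j => denom g τ₀ ^ (B.k j) = 1).card =
      Module.finrank ℂ (invFun Γ g) := by
  classical
  have hd : denom g τ₀ ≠ 0 := denom_ne_zero g τ₀
  set v : X Γ → X Γ → ℂ := fun j x => vec Γ (B.k j) (B.F j) x τ₀ with hv
  have hli : LinearIndependent ℂ v := B.indep τ₀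
  have hcard : Fintype.card (X Γ) = Module.finrank ℂ (X Γ → ℂ) := by simp
  have hsp : ⊤ ≤ Submodule.span ℂ (Set.range v) :=
    (hli.span_eq_top_of_card_eq_finrank' hcard).ge
  have hR : ∀ j, actInv Γ g (v j) = ((denom g τ₀ ^ (B.k j))⁻¹) • v j := by
    intro j
    funext x
    have h := vec_smul_apply (B.mem j).2.1 x g τ₀
    rw [hg] at h
    simp only [hv, actInv_apply, Pi.smul_apply, smul_eq_mul]
    rw [h, inv_mul_cancel_left₀ (zpow_ne_zero _ hd)]
  have h := card_eigenvalue_one v hli hsp (actInv Γ g) (fun j => (denom g τ₀ ^ (B.k j))⁻¹) hR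
  rw [invFun_eq_ker, ← h]
  congr 1
  ext j
  simp only [Finset.mem_filter, Finset.mem_univ, true_and, inv_eq_one]

/-- `g = S`, `τ₀ = i`, `denom = i`. -/
theorem card_four_dvd (B : FreeBasis Γ) :
    (Finset.univ.filter fun j => (4 : ℤ) ∣ B.k j).card = orbitCount Γ ModularGroup.S := by
  classical
  rw [← finrank_invFun, ← card_filter_denom_zpow_eq_one B ModularGroup.S UpperHalfPlane.I S_smul_I]
  congr 1
  ext j
  simp only [Finset.mem_filter, Finset.mem_univ, true_and]
  rw [ModularGroup.denom_S, UpperHalfPlane.coe_I, I_zpow_eq_one_iff]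

/-- `g = S * T`, `τ₀ = ρ = (-1 + i √3)/2`, `denom = ρ + 1`, a primitive 6th root of unity. -/
theorem card_six_dvd (B : FreeBasis Γ) :
    (Finset.univ.filter fun j => (6 : ℤ) ∣ B.k j).card =
      orbitCount Γ (ModularGroup.S * ModularGroup.T) := by
  classical
  rw [← finrank_invFun,
    ← card_filter_denom_zpow_eq_one B (ModularGroup.S * ModularGroup.T) ρ ST_smul_rho]
  congr 1
  ext j
  simp only [Finset.mem_filter, Finset.mem_univ, true_and]
  rw [denom_ST_rho rfl, zpow_eq_one_iff_six_dvd]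
  have h := ρ_sq
  linear_combination h

end Fermat.Agent.S20
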