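import Fermat.Agent.S20.Defs
import Fermat.Agent.S21.Cramer
import Fermat.Agent.S21.CuspDual

/-!
# S20: existence of a dual frame (from S21: `nonempty_freeBasis` and the cusp-dual construction)
-/

set_option autoImplicit false

open UpperHalfPlane ModularForm CongruenceSubgroup Filter Topology
open scoped MatrixGroups ModularForm Manifold
open Fermat.Agent.S21

namespace Fermat.Agent.S20

theorem exists_dualFrame (N : ℕ) [NeZero N] : Nonempty (DualFrame (Gamma0 N)) := by
  obtain ⟨B⟩ := nonempty_freeBasis N
  refine ⟨{ toFreeBasis := B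
            G := fun j => CuspDual.HH B j (QuotientGroup.mk 1 : X (Gamma0 N))
            memG := CuspDual.HH_mem B
            dual := fun j l τ => ?_ }⟩
  simp only [CuspDual.vec_HH]
  have h1 : ∑ x, vec (Gamma0 N) (B.k j) (B.F j) x τ * CuspDual.HH B l x τ =
      Dl τ * ((CuspDual.Phi B τ)⁻¹ * CuspDual.Phi B τ) l j := by
    rw [Matrix.mul_apply, Finset.mul_sum]
    refine Finset.sum_congr rfl fun x _ => ?_
    simp only [CuspDual.HH, CuspDual.Phi, Matrix.of_apply]
    ring
  rw [h1, Matrix.nonsing_inv_mul _ ((Matrix.isUnit_iff_isUnit_det _).mp (CuspDual.isUnit_Phi B τ))]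
  by_cases hjl : j = l
  · subst hjl
    rw [Matrix.one_apply_eq, mul_one, if_pos rfl]
  · rw [Matrix.one_apply_ne (Ne.symm hjl), mul_zero, if_neg hjl]

end Fermat.Agent.S20
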