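import Fermat.Agent.S20.Defs
import Fermat.Agent.Gamma0Comb.All

/-!
# S20: orbit counts (from `Gamma0Comb`)
-/

set_option autoImplicit false

open CongruenceSubgroup ModularCurve
open scoped MatrixGroups
open Fermat.Agent.S21

namespace Fermat.Agent.S20

section General

open MulAction

variable {G Y : Type*} [Group G] [MulAction G Y]

lemma card_orbit_zpowers [Finite Y] (a : G) (x : Y) :
    Nat.card (orbit (Subgroup.zpowers a) x) = Function.minimalPeriod (a • ·) x := by
  classical
  have : Fintype (orbit (Subgroup.zpowers a) x) := Fintype.ofFinite _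
  rw [Nat.card_eq_fintype_card, MulAction.minimalPeriod_eq_card]

open scoped Classical in
lemma minimalPeriod_smul_of_prime {ℓ : ℕ} (hℓ : ℓ.Prime) (a : G)
    (ha : ∀ x : Y, (a ^ ℓ) • x = x) (x : Y) :
    Function.minimalPeriod (a • ·) x = if a • x = x then 1 else ℓ := by
  have hper : Function.IsPeriodicPt (a • ·) ℓ x := by
    rw [Function.IsPeriodicPt, Function.IsFixedPt, smul_iterate_apply]
    exact ha x
  have hdvd := hper.minimalPeriod_dvd
  split_ifs with hx
  · exact Function.minimalPeriod_eq_one_iff_isFixedPt.2 hx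
  · rcases (Nat.dvd_prime hℓ).1 hdvd with h | h
    · exact absurd (Function.minimalPeriod_eq_one_iff_isFixedPt.1 h) hx
    · exact h

/-- If `a ^ ℓ` acts trivially (`ℓ` prime), then `ℓ * #orbits = n + (ℓ - 1) * #Fix`. -/
theorem prime_mul_card_orbits [Finite Y] {ℓ : ℕ} (hℓ : ℓ.Prime) (a : G)
    (ha : ∀ x : Y, (a ^ ℓ) • x = x) :
    ℓ * Nat.card (MulAction.orbitRel.Quotient (Subgroup.zpowers a) Y) =
      Nat.card Y + (ℓ - 1) * Nat.card (MulAction.fixedBy Y a) := by
  classical
  have : Fintype Y := Fintype.ofFinite _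
  set Ω := MulAction.orbitRel.Quotient (Subgroup.zpowers a) Y with hΩ
  have : Fintype Ω := Fintype.ofFinite _
  -- size of each orbit
  have hsize : ∀ ω : Ω, Nat.card ω.orbit = 1 ∨ Nat.card ω.orbit = ℓ := by
    intro ω
    induction ω using Quotient.inductionOn' with
    | h x =>
      rw [MulAction.orbitRel.Quotient.orbit_mk, card_orbit_zpowers,
        minimalPeriod_smul_of_prime hℓ a ha]
      split_ifs
      · exact Or.inl rfl
      · exact Or.inr rfl
  -- fixed points correspond to orbits of size one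
  have hfix : Nat.card (MulAction.fixedBy Y a) = Nat.card {ω : Ω // Nat.card ω.orbit = 1} := by
    refine Nat.card_congr (Equiv.ofBijective
      (fun x => ⟨(Quotient.mk'' x.1 : Ω), ?_⟩) ⟨?_, ?_⟩)
    · rw [MulAction.orbitRel.Quotient.orbit_mk, card_orbit_zpowers,
        minimalPeriod_smul_of_prime hℓ a ha, if_pos (show a • x.1 = x.1 from x.2)]
    · rintro ⟨x, hx⟩ ⟨y, hy⟩ hxy
      have h1 : (Quotient.mk'' x : Ω) = Quotient.mk'' y := congrArg Subtype.val hxy
      have h2 : x ∈ orbit (Subgroup.zpowers a) y := by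
        have := Quotient.exact' h1
        rwa [MulAction.orbitRel_apply] at this
      obtain ⟨⟨g, hg⟩, rfl⟩ := h2
      obtain ⟨k, rfl⟩ := Subgroup.mem_zpowers_iff.1 hg
      apply Subtype.ext
      show (a ^ k) • y = y
      exact MulAction.zpow_smul_eq_iff_minimalPeriod_dvd.2 (by
        rw [Function.minimalPeriod_eq_one_iff_isFixedPt.2 hy]; simp)
    · rintro ⟨ω, hω⟩
      induction ω using Quotient.inductionOn' with
      | h x =>
        rw [MulAction.orbitRel.Quotient.orbit_mk, card_orbit_zpowers] at hω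
        exact ⟨⟨x, Function.minimalPeriod_eq_one_iff_isFixedPt.1 hω⟩, rfl⟩
  have hX : Nat.card Y = ∑ ω : Ω, Nat.card ω.orbit := by
    rw [Nat.card_congr (MulAction.selfEquivSigmaOrbits' (Subgroup.zpowers a) Y), Nat.card_sigma]
  have hsum : ∑ ω : Ω, Nat.card ω.orbit + (ℓ - 1) * Nat.card {ω : Ω // Nat.card ω.orbit = 1}
      = ∑ _ω : Ω, ℓ := by
    rw [Nat.card_eq_fintype_card, Fintype.card_subtype, Finset.card_filter, Finset.mul_sum,
      ← Finset.sum_add_distrib]
    refine Finset.sum_congr rfl fun ω _ => ?_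
    have hℓ1 := hℓ.one_lt
    rcases hsize ω with h | h
    · rw [if_pos h, h]; omega
    · rw [if_neg (by omega), h]; omega
  rw [hX, hfix, hsum, Finset.sum_const, Finset.card_univ, smul_eq_mul,
    Nat.card_eq_fintype_card, mul_comm]

end General

variable (N : ℕ) [NeZero N]

theorem card_X : Fintype.card (X (Gamma0 N)) = dedekindPsi N := by
  rw [← Nat.card_eq_fintype_card]
  exact Fermat.Agent.Gamma0Comb.index_Gamma0 N

omit [NeZero N] in
/-- `-1` acts trivially on `SL₂(ℤ)/Γ₀(N)` -/
theorem neg_one_smul_X (x : X (Gamma0 N)) : (-1 : SL(2, ℤ)) • x = x := by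
  induction x using QuotientGroup.induction_on with
  | H g =>
    rw [MulAction.Quotient.smul_mk]
    refine QuotientGroup.eq.2 ?_
    have : ((-1 : SL(2, ℤ)) • g)⁻¹ * g = -1 := by
      rw [smul_eq_mul, mul_inv_rev]
      have h1 : (-1 : SL(2, ℤ))⁻¹ = -1 := by
        rw [inv_eq_iff_mul_eq_one]
        simp
      rw [h1]
      simp
    rw [this]
    exact neg_one_mem_Gamma0 N

theorem orbitCount_S : 2 * orbitCount (Gamma0 N) ModularGroup.S = dedekindPsi N + nuTwo N := by
  have h := prime_mul_card_orbits (Y := X (Gamma0 N)) Nat.prime_two ModularGroup.S (fun x => by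
    have : ModularGroup.S ^ 2 = (-1 : SL(2, ℤ)) := by
      ext i j
      fin_cases i <;> fin_cases j <;>
        simp [pow_succ, ModularGroup.S, Matrix.mul_apply, Fin.sum_univ_two]
    rw [this]
    exact neg_one_smul_X N x)
  have h1 : Nat.card (X (Gamma0 N)) = dedekindPsi N := Fermat.Agent.Gamma0Comb.index_Gamma0 N
  have h2 : Nat.card (MulAction.fixedBy (X (Gamma0 N)) ModularGroup.S) = nuTwo N :=
    Fermat.Agent.Gamma0Comb.card_fixedBy_S
  rw [h1, h2] at h
  simp only [Nat.add_one_sub_one, one_mul] at h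
  exact h

theorem orbitCount_ST :
    3 * orbitCount (Gamma0 N) (ModularGroup.S * ModularGroup.T) =
      dedekindPsi N + 2 * nuThree N := by
  have h := prime_mul_card_orbits (Y := X (Gamma0 N)) Nat.prime_three
    (ModularGroup.S * ModularGroup.T) (fun x => by
    have : (ModularGroup.S * ModularGroup.T) ^ 3 = (-1 : SL(2, ℤ)) := by
      ext i j
      fin_cases i <;> fin_cases j <;>
        simp [pow_succ, ModularGroup.S, ModularGroup.T, Matrix.mul_apply, Fin.sum_univ_two]
    rw [this]
    exact neg_one_smul_X N x)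
  have h1 : Nat.card (X (Gamma0 N)) = dedekindPsi N := Fermat.Agent.Gamma0Comb.index_Gamma0 N
  have h2 : Nat.card (MulAction.fixedBy (X (Gamma0 N)) (ModularGroup.S * ModularGroup.T)) =
      nuThree N := Fermat.Agent.Gamma0Comb.card_fixedBy_ST
  rw [h1, h2] at h
  simp only [Nat.add_one_sub_one, one_mul] at h
  exact h

theorem orbitCount_T : orbitCount (Gamma0 N) ModularGroup.T = cuspCount N :=
  Fermat.Agent.Gamma0Comb.card_orbits_T

end Fermat.Agent.S20
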