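import Fermat.Agent.S20.Defs

/-!
# S20 task A (Dims): bridge to Mathlib's bundled spaces and the level one dimension formula
-/

set_option autoImplicit false

open UpperHalfPlane ModularForm CongruenceSubgroup Filter Topology
open scoped MatrixGroups ModularForm Manifold
open Fermat.Agent.S21

namespace Fermat.Agent.S20

/-- the coercion of bundled cusp forms to functions, as a linear map -/
noncomputable def cuspCoeLin (G : Subgroup (GL (Fin 2) ℝ)) [G.HasDetOne] (k : ℤ) :
    CuspForm G k →ₗ[ℂ] (ℍ → ℂ) where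
  toFun f := ⇑f
  map_add' _ _ := rfl
  map_smul' _ _ := rfl

theorem cuspCoeLin_injective (G : Subgroup (GL (Fin 2) ℝ)) [G.HasDetOne] (k : ℤ) :
    Function.Injective (cuspCoeLin G k) := fun _ _ h => DFunLike.coe_injective h

/-- the coercion of bundled modular forms to functions, as a linear map -/
noncomputable def modCoeLin (G : Subgroup (GL (Fin 2) ℝ)) [G.HasDetOne] (k : ℤ) :
    ModularForm G k →ₗ[ℂ] (ℍ → ℂ) where
  toFun f := ⇑f
  map_add' _ _ := rfl
  map_smul' _ _ := rfl

theorem modCoeLin_injective (G : Subgroup (GL (Fin 2) ℝ)) [G.HasDetOne] (k : ℤ) :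
    Function.Injective (modCoeLin G k) := fun _ _ h => DFunLike.coe_injective h

theorem range_cuspCoeLin (Γ : Subgroup SL(2, ℤ)) [Γ.FiniteIndex] (k : ℤ) :
    LinearMap.range (cuspCoeLin (Γ : Subgroup (GL (Fin 2) ℝ)) k) = CF Γ k := by
  ext f
  rw [mem_CF_iff_exists]
  rfl

theorem range_modCoeLin_top (k : ℤ) : LinearMap.range (modCoeLin 𝒮ℒ k) = MF ⊤ k := by
  ext f
  rw [mem_MF_top_iff_exists]
  rfl

/-- `MF ⊤ k` is linearly equivalent to Mathlib's bundled space of level one forms -/
noncomputable def equivMFtop (k : ℤ) : ModularForm 𝒮ℒ k ≃ₗ[ℂ] MF ⊤ k :=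
  (LinearEquiv.ofInjective _ (modCoeLin_injective 𝒮ℒ k)).trans
    (LinearEquiv.ofEq _ _ (range_modCoeLin_top k))

/-- `CF Γ k` has the same dimension as Mathlib's bundled space of cusp forms.
(`mem_CF_iff_exists`; the coercion to functions is an injective linear map with range `CF Γ k`.) -/
theorem finrank_CF_eq (Γ : Subgroup SL(2, ℤ)) [Γ.FiniteIndex] (k : ℤ) :
    Module.finrank ℂ (CF Γ k) =
      Module.finrank ℂ (CuspForm (Γ : Subgroup (GL (Fin 2) ℝ)) k) := by
  rw [← range_cuspCoeLin]
  exact LinearMap.finrank_range_of_inj (cuspCoeLin_injective _ k)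

instance instFiniteDimensionalMFtop (k : ℤ) : FiniteDimensional ℂ (MF ⊤ k) :=
  LinearEquiv.finiteDimensional (equivMFtop k)

/-- the level one dimension formula (from Mathlib's `ModularForm.dimension_level_one`,
`levelOne_neg_weight_rank_zero`, `levelOne_odd_weight_rank_zero`, via `mem_MF_top_iff_exists`) -/
theorem finrank_MF_top (k : ℤ) : Module.finrank ℂ (MF ⊤ k) =
    if k < 0 ∨ Odd k then 0 else if k % 12 = 2 then (k / 12).toNat else (k / 12).toNat + 1 := by
  rw [← (equivMFtop k).finrank_eq]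
  split_ifs with h1 h2
  · rcases h1 with h1 | h1
    · exact Module.finrank_eq_of_rank_eq (n := 0) (by simpa using levelOne_neg_weight_rank_zero h1)
    · exact Module.finrank_eq_of_rank_eq (n := 0) (by simpa using levelOne_odd_weight_rank_zero h1)
  · push Not at h1
    obtain ⟨h0, he⟩ := h1
    rw [Int.not_odd_iff_even] at he
    lift k to ℕ using h0
    have he' : Even k := by exact_mod_cast he
    have hm : k ≡ 2 [MOD 12] := by
      unfold Nat.ModEq; omega
    apply Module.finrank_eq_of_rank_eq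
    rw [dimension_level_one k he', if_pos hm]
    have : ((k : ℤ) / 12).toNat = k / 12 := by omega
    rw [this]
  · push Not at h1
    obtain ⟨h0, he⟩ := h1
    rw [Int.not_odd_iff_even] at he
    lift k to ℕ using h0
    have he' : Even k := by exact_mod_cast he
    have hm : ¬ k ≡ 2 [MOD 12] := by
      unfold Nat.ModEq; omega
    apply Module.finrank_eq_of_rank_eq
    rw [dimension_level_one k he', if_neg hm]
    have : ((k : ℤ) / 12).toNat = k / 12 := by omega
    rw [this]

/-- weight zero forms are the constants -/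
theorem finrank_MF_zero (Γ : Subgroup SL(2, ℤ)) [Γ.FiniteIndex] :
    Module.finrank ℂ (MF Γ 0) = 1 := by
  have h1 : (fun _ : ℍ => (1 : ℂ)) ∈ MF Γ 0 := const_mem_MF Γ 1
  refine finrank_eq_one (⟨_, h1⟩ : MF Γ 0) ?_ ?_
  · intro h
    have := congrArg (fun f : MF Γ 0 => (f : ℍ → ℂ) UpperHalfPlane.I) h
    simp at this
  · rintro ⟨f, hf⟩
    obtain ⟨c, rfl⟩ := MF_zero_eq_const hf
    refine ⟨c, ?_⟩
    ext τ
    simp

/-- division of a level one cusp form by `Δ` (Mathlib: `CuspForm.discriminantEquiv`) -/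
theorem div_Dl_mem_MF_top {k : ℤ} {f : ℍ → ℂ} (hf : f ∈ CF ⊤ k) :
    (fun τ => f τ / Dl τ) ∈ MF ⊤ (k - 12) := by
  obtain ⟨F, rfl⟩ := mem_CF_top_iff_exists.mp hf
  exact mem_MF_top_iff_exists.mpr ⟨CuspForm.discriminantEquiv F, rfl⟩

end Fermat.Agent.S20
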