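import Fermat.Agent.S20.Dims

/-!
# S20 task B (Structure): structure theorems deduced from a free basis / dual frame
-/

set_option autoImplicit false

open UpperHalfPlane ModularForm CongruenceSubgroup Filter Topology
open scoped MatrixGroups ModularForm Manifold
open Fermat.Agent.S21

namespace Fermat.Agent.S20

variable {Γ : Subgroup SL(2, ℤ)} [Γ.FiniteIndex]

/-- the other duality relation `∑_j F_j(x) G_j(y) = δ_{xy} Δ` (left inverse = right inverse) -/
theorem DualFrame.dual' (D : DualFrame Γ) (x y : X Γ) (τ : ℍ) :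
    ∑ j, vec Γ (D.k j) (D.F j) x τ * vec Γ (12 - D.k j) (D.G j) y τ =
      if x = y then Dl τ else 0 := by
  classical
  let A : Matrix (X Γ) (X Γ) ℂ := Matrix.of fun j x => vec Γ (D.k j) (D.F j) x τ
  let B : Matrix (X Γ) (X Γ) ℂ :=
    Matrix.of fun x l => (Dl τ)⁻¹ * vec Γ (12 - D.k l) (D.G l) x τ
  have hD : Dl τ ≠ 0 := Dl_ne_zero τ
  have hAB : A * B = 1 := by
    ext j l
    have h := D.dual j l τ
    simp only [Matrix.mul_apply, A, B, Matrix.one_apply, Matrix.of_apply]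
    calc ∑ x, vec Γ (D.k j) (D.F j) x τ * ((Dl τ)⁻¹ * vec Γ (12 - D.k l) (D.G l) x τ)
        = (Dl τ)⁻¹ * ∑ x, vec Γ (D.k j) (D.F j) x τ * vec Γ (12 - D.k l) (D.G l) x τ := by
          rw [Finset.mul_sum]
          exact Finset.sum_congr rfl fun x _ => by ring
      _ = _ := by
          rw [h]
          split_ifs
          · exact inv_mul_cancel₀ hD
          · simp
  have hBA : B * A = 1 := mul_eq_one_comm.mp hAB
  have h := congrFun (congrFun hBA y) x
  simp only [Matrix.mul_apply, A, B, Matrix.one_apply, Matrix.of_apply] at h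
  calc ∑ j, vec Γ (D.k j) (D.F j) x τ * vec Γ (12 - D.k j) (D.G j) y τ
      = Dl τ * ∑ j, (Dl τ)⁻¹ * vec Γ (12 - D.k j) (D.G j) y τ * vec Γ (D.k j) (D.F j) x τ := by
        rw [Finset.mul_sum]
        exact Finset.sum_congr rfl fun j _ => by field_simp
    _ = _ := by
        rw [h]
        by_cases hxy : x = y
        · simp [hxy]
        · have : ¬ y = x := fun h => hxy h.symm
          simp [hxy, this]

omit [Γ.FiniteIndex] in
theorem vec_sum {ι : Type*} (s : Finset ι) (k : ℤ) (h : ι → ℍ → ℂ) (x : X Γ) :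
    vec Γ k (∑ j ∈ s, h j) x = ∑ j ∈ s, vec Γ k (h j) x := by
  simp [vec, SlashAction.sum_slash]

omit [Γ.FiniteIndex] in
theorem vec_mul_levelOne' {r : ℍ → ℂ} {a l m : ℤ} (hr : r ∈ MF ⊤ a) (h : a + l = m)
    (f : ℍ → ℂ) (x : X Γ) : vec Γ m (r * f) x = r * vec Γ l f x := by
  subst h
  exact vec_mul_levelOne hr l f x

theorem mdiff_sum {ι : Type*} (s : Finset ι) (h : ι → ℍ → ℂ) (hh : ∀ j ∈ s, MDiff (h j)) :
    MDiff (∑ j ∈ s, h j) :=
  Finset.sum_induction h (fun f : ℍ → ℂ => MDiff f) (fun _ _ ha hb => ha.add hb)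
    mdifferentiable_const hh

/-- the trace of a cusp form is a level one cusp form -/
theorem trace_mem {k : ℤ} {h : ℍ → ℂ} (hh : h ∈ CF Γ k) :
    (∑ x, vec Γ k h x) ∈ CF ⊤ k := by
  have hinv : ∀ γ : SL(2, ℤ), (∑ x, vec Γ k h x) ∣[k] γ = ∑ x, vec Γ k h x := by
    intro γ
    rw [SlashAction.sum_slash]
    simp_rw [vec_slash (mem_CF_iff.mp hh).2.1]
    exact Equiv.sum_comp (MulAction.toPerm γ⁻¹) (fun x => vec Γ k h x)
  refine mem_CF_iff.mpr ⟨mdiff_sum _ _ fun x _ => vec_mdiff (mem_CF_iff.mp hh).1 k x,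
    fun γ _ => hinv γ, fun δ => ?_⟩
  rw [hinv δ]
  have h0 : ∀ x : X Γ, Tendsto (vec Γ k h x) atImInfty (𝓝 0) := fun x => vec_isZeroAtImInfty hh x
  have := tendsto_finsetSum (Finset.univ : Finset (X Γ)) fun x _ => h0 x
  simp only [Finset.sum_const_zero] at this
  have h2 : (∑ x, vec Γ k h x) = fun τ => ∑ x, vec Γ k h x τ := by
    ext τ
    simp
  rw [h2]
  exact this

/-- the trace pairing of a modular form and a cusp form is a level one cusp form -/
theorem trace_mul_mem {k l : ℤ} {f g : ℍ → ℂ} (hf : f ∈ MF Γ k) (hg : g ∈ CF Γ l) :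
    (fun τ => ∑ x, vec Γ k f x τ * vec Γ l g x τ) ∈ CF ⊤ (k + l) := by
  have h := trace_mem (mul_mem_CF hf hg)
  have h2 : (∑ x, vec Γ (k + l) (f * g) x) = fun τ => ∑ x, vec Γ k f x τ * vec Γ l g x τ := by
    ext τ
    simp [vec_mul]
  rwa [h2] at h

/-- `M_k(Γ) ≃ ∏_j M_{k - k_j}(SL₂(ℤ))`, `(r_j) ↦ ∑ r_j F_j` (from `gen` and `indep`) -/
theorem nonempty_equiv_MF (B : FreeBasis Γ) (k : ℤ) :
    Nonempty ((∀ j, MF ⊤ (k - B.k j)) ≃ₗ[ℂ] MF Γ k) := by
  classical
  have hmem : ∀ r : (∀ j, MF ⊤ (k - B.k j)), (∑ j, (r j : ℍ → ℂ) * B.F j) ∈ MF Γ k := by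
    intro r
    refine Submodule.sum_mem _ fun j _ => ?_
    exact mul_mem_MF' (MF_mono le_top _ (r j).2) (B.mem j) (by ring)
  let φ : (∀ j, MF ⊤ (k - B.k j)) →ₗ[ℂ] MF Γ k :=
    { toFun := fun r => ⟨∑ j, (r j : ℍ → ℂ) * B.F j, hmem r⟩
      map_add' := by
        intro r s
        ext1
        simp [add_mul, Finset.sum_add_distrib]
      map_smul' := by
        intro c r
        ext1
        simp [Finset.smul_sum] }
  refine ⟨LinearEquiv.ofBijective φ ⟨?_, ?_⟩⟩
  · rw [← LinearMap.ker_eq_bot, LinearMap.ker_eq_bot']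
    intro r hr
    have h0 : (∑ j, (r j : ℍ → ℂ) * B.F j) = 0 := congrArg Subtype.val hr
    funext j
    ext τ
    have h1 : ∑ j, (r j : ℍ → ℂ) τ • (fun x : X Γ => vec Γ (B.k j) (B.F j) x τ) = 0 := by
      funext x
      have h2 : vec Γ k (∑ j, (r j : ℍ → ℂ) * B.F j) x = 0 := by
        rw [h0]
        simp [vec]
      rw [vec_sum] at h2
      have h3 := congrFun h2 τ
      simp only [Finset.sum_apply, Pi.zero_apply] at h3
      simp only [Finset.sum_apply, Pi.smul_apply, smul_eq_mul, Pi.zero_apply]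
      rw [← h3]
      refine Finset.sum_congr rfl fun j _ => ?_
      rw [vec_mul_levelOne' (r j).2 (by ring : k - B.k j + B.k j = k)]
      rfl
    exact Fintype.linearIndependent_iff.mp (B.indep τ) _ h1 j
  · rintro ⟨f, hf⟩
    obtain ⟨r, hr, hfr⟩ := B.gen k f hf
    refine ⟨fun j => ⟨r j, hr j⟩, ?_⟩
    ext1
    exact hfr.symm

/-- `S_k(Γ) ≃ ∏_j M_{k + k_j - 12}(SL₂(ℤ))`, `(r_j) ↦ ∑ r_j G_j`; the inverse sends `g` to
`(trace (g F_j) / Δ)_j`. -/
theorem DualFrame.nonempty_equiv_CF (D : DualFrame Γ) (k : ℤ) :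
    Nonempty ((∀ j, MF ⊤ (k + D.k j - 12)) ≃ₗ[ℂ] CF Γ k) := by
  classical
  have hmem : ∀ r : (∀ j, MF ⊤ (k + D.k j - 12)), (∑ j, (r j : ℍ → ℂ) * D.G j) ∈ CF Γ k := by
    intro r
    refine Submodule.sum_mem _ fun j _ => ?_
    have := mul_mem_CF (MF_mono le_top _ (r j).2) (D.memG j)
    have e : k + D.k j - 12 + (12 - D.k j) = k := by ring
    rwa [e] at this
  let φ : (∀ j, MF ⊤ (k + D.k j - 12)) →ₗ[ℂ] CF Γ k :=
    { toFun := fun r => ⟨∑ j, (r j : ℍ → ℂ) * D.G j, hmem r⟩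
      map_add' := by
        intro r s
        ext1
        simp [add_mul, Finset.sum_add_distrib]
      map_smul' := by
        intro c r
        ext1
        simp [Finset.smul_sum] }
  refine ⟨LinearEquiv.ofBijective φ ⟨?_, ?_⟩⟩
  · rw [← LinearMap.ker_eq_bot, LinearMap.ker_eq_bot']
    intro r hr
    have h0 : (∑ j, (r j : ℍ → ℂ) * D.G j) = 0 := congrArg Subtype.val hr
    funext l
    ext τ
    have h1 : ∀ x : X Γ, ∑ j, (r j : ℍ → ℂ) τ * vec Γ (12 - D.k j) (D.G j) x τ = 0 := by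
      intro x
      have h2 : vec Γ k (∑ j, (r j : ℍ → ℂ) * D.G j) x = 0 := by
        rw [h0]
        simp [vec]
      rw [vec_sum] at h2
      have h3 := congrFun h2 τ
      simp only [Finset.sum_apply, Pi.zero_apply] at h3
      rw [← h3]
      refine Finset.sum_congr rfl fun j _ => ?_
      rw [vec_mul_levelOne' (r j).2 (by ring : k + D.k j - 12 + (12 - D.k j) = k)]
      rfl
    have h4 : ∑ x, vec Γ (D.k l) (D.F l) x τ *
        ∑ j, (r j : ℍ → ℂ) τ * vec Γ (12 - D.k j) (D.G j) x τ = 0 := by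
      simp [h1]
    have h5 : ∑ x, vec Γ (D.k l) (D.F l) x τ *
        ∑ j, (r j : ℍ → ℂ) τ * vec Γ (12 - D.k j) (D.G j) x τ = (r l : ℍ → ℂ) τ * Dl τ := by
      simp_rw [Finset.mul_sum]
      rw [Finset.sum_comm]
      calc ∑ j, ∑ x, vec Γ (D.k l) (D.F l) x τ * ((r j : ℍ → ℂ) τ * vec Γ (12 - D.k j) (D.G j) x τ)
          = ∑ j, (r j : ℍ → ℂ) τ *
              ∑ x, vec Γ (D.k l) (D.F l) x τ * vec Γ (12 - D.k j) (D.G j) x τ := by
            refine Finset.sum_congr rfl fun j _ => ?_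
            rw [Finset.mul_sum]
            exact Finset.sum_congr rfl fun x _ => by ring
        _ = _ := by
            simp_rw [D.dual]
            simp
    rw [h5] at h4
    simpa [Dl_ne_zero τ] using h4
  · rintro ⟨g, hg⟩
    have hr : ∀ j, (fun τ => (∑ x, vec Γ (D.k j) (D.F j) x τ * vec Γ k g x τ) / Dl τ) ∈
        MF ⊤ (k + D.k j - 12) := by
      intro j
      have := div_Dl_mem_MF_top (trace_mul_mem (D.mem j) hg)
      have e : D.k j + k - 12 = k + D.k j - 12 := by ring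
      rwa [e] at this
    refine ⟨fun j => ⟨_, hr j⟩, ?_⟩
    ext1
    funext τ
    have hG : ∀ j, D.G j τ = vec Γ (12 - D.k j) (D.G j) (QuotientGroup.mk 1 : X Γ) τ := by
      intro j
      rw [vec_one (mem_CF_iff.mp (D.memG j)).2.1]
    have hg1 : g τ = vec Γ k g (QuotientGroup.mk 1 : X Γ) τ := by
      rw [vec_one (mem_CF_iff.mp hg).2.1]
    show (∑ j, (fun τ => (∑ x, vec Γ (D.k j) (D.F j) x τ * vec Γ k g x τ) / Dl τ) * D.G j) τ = g τ
    simp only [Finset.sum_apply, Pi.mul_apply]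
    calc ∑ j, (∑ x, vec Γ (D.k j) (D.F j) x τ * vec Γ k g x τ) / Dl τ * D.G j τ
        = (Dl τ)⁻¹ * ∑ x, vec Γ k g x τ * ∑ j, vec Γ (D.k j) (D.F j) x τ *
            vec Γ (12 - D.k j) (D.G j) (QuotientGroup.mk 1 : X Γ) τ := by
          simp_rw [Finset.mul_sum, hG, div_eq_mul_inv, Finset.sum_mul]
          rw [Finset.sum_comm]
          exact Finset.sum_congr rfl fun x _ => Finset.sum_congr rfl fun j _ => by ring
      _ = g τ := by
          simp_rw [D.dual']
          simp only [mul_ite, mul_zero, Finset.sum_ite_eq', Finset.mem_univ, if_true]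
          rw [← hg1]
          field_simp [Dl_ne_zero τ]

theorem finiteDimensional_MF (B : FreeBasis Γ) (k : ℤ) : FiniteDimensional ℂ (MF Γ k) := by
  obtain ⟨e⟩ := nonempty_equiv_MF B k
  exact e.finiteDimensional

theorem finrank_MF (B : FreeBasis Γ) (k : ℤ) :
    Module.finrank ℂ (MF Γ k) = ∑ j, Module.finrank ℂ (MF ⊤ (k - B.k j)) := by
  obtain ⟨e⟩ := nonempty_equiv_MF B k
  rw [← e.finrank_eq, Module.finrank_pi_fintype]

theorem DualFrame.finrank_CF (D : DualFrame Γ) (k : ℤ) :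
    Module.finrank ℂ (CF Γ k) = ∑ j, Module.finrank ℂ (MF ⊤ (k + D.k j - 12)) := by
  obtain ⟨e⟩ := D.nonempty_equiv_CF k
  rw [← e.finrank_eq, Module.finrank_pi_fintype]

end Fermat.Agent.S20
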